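import Mathlib
import Fermat.Agent.LT.T5.Spec
import Fermat.Agent.LT.T1.Spec
import Fermat.Agent.LT.T5.H277.Ray

/-!
# Row LT, tower T7, ASSET (helper277): the periodisation along the ray is a FINITE sum

For a compactly supported `φ` and every `g` only finitely many `m ∈ ℤ` have `φ (g rᵐ) ≠ 0`
(the module `‖det‖` is continuous, positive and `‖det r‖ = 2`).  Hence `T5.flat`, `T5.twTerm`
are additive in `φ` on compactly supported functions -- needed wherever a test function is a
SUM (e.g. `f₀ + f₁` in the quadratic mirror of `GeomC`).  Input: `T1.AdNormC`.  OFF-MAIN.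
-/

set_option autoImplicit false
open IsDedekindDomain NumberField MeasureTheory
open scoped MatrixGroups
open Fermat.Agent.LT.H556.A0 Fermat.Agent.LT.T5

noncomputable section
namespace Fermat.Agent.LT.T7.H277

open Fermat.Agent.LT.T5.H277

variable {K : Type} [Field K] [NumberField K]

/-- The determinant `GL₂(𝔸_K) → 𝔸_Kˣ` is continuous. -/
theorem continuous_detG277 :
    Continuous (fun g : G K => (Matrix.GeneralLinearGroup.det g : (Adl K)ˣ)) := by
  rw [Units.continuous_iff]
  constructor
  · have : (Units.val ∘ fun g : G K => (Matrix.GeneralLinearGroup.det g : (Adl K)ˣ))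
        = fun g : G K => Matrix.det (g : Matrix (Fin 2) (Fin 2) (Adl K)) := by
      funext g; rfl
    rw [this]
    exact Continuous.matrix_det Units.continuous_val
  · have : (fun g : G K => (((Matrix.GeneralLinearGroup.det g : (Adl K)ˣ)⁻¹ : (Adl K)ˣ) : Adl K))
        = fun g : G K => Matrix.det ((g⁻¹ : G K) : Matrix (Fin 2) (Fin 2) (Adl K)) := by
      funext g
      rw [← map_inv]; rfl
    rw [this]
    exact Continuous.matrix_det Units.continuous_coe_inv

/-- The module of the determinant is continuous. -/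
theorem continuous_nd277 (hN : T1.AdNormC K) : Continuous (nd277 : G K → ℝ) := by
  have h := hN.2.2.2.comp (continuous_detG277 (K := K))
  exact h

/-- Only finitely many points of a ray through `g` meet a compact support. -/
theorem finite_ray_support277 (hN : T1.AdNormC K) {r : G K} (hr : IsRayGen r)
    {φ : G K → ℂ} (hφ : HasCompactSupport φ) (g : G K) :
    {m : ℤ | φ (g * r ^ m) ≠ 0}.Finite := by
  by_cases hne : (tsupport φ).Nonempty
  swap
  · rw [Set.not_nonempty_iff_eq_empty] at hne
    have : {m : ℤ | φ (g * r ^ m) ≠ 0} = ∅ := by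
      ext m
      simp only [Set.mem_setOf_eq, Set.mem_empty_iff_false, iff_false, not_not]
      by_contra h
      have : g * r ^ m ∈ tsupport φ := subset_tsupport _ h
      rw [hne] at this
      exact this
    rw [this]; exact Set.finite_empty
  have hcomp : IsCompact (tsupport φ) := hφ
  obtain ⟨x₁, -, h₁⟩ := hcomp.exists_isMinOn hne (continuous_nd277 hN).continuousOn
  obtain ⟨x₂, -, h₂⟩ := hcomp.exists_isMaxOn hne (continuous_nd277 hN).continuousOn
  have ha : 0 < nd277 x₁ := nd277_pos hN _
  have hb : 0 < nd277 x₂ := nd277_pos hN _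
  have hg : 0 < nd277 g := nd277_pos hN _
  apply Set.Finite.subset (Set.finite_Icc (Int.clog 2 (nd277 x₁ / nd277 g))
    (Int.log 2 (nd277 x₂ / nd277 g)))
  intro m hm
  have hmem : g * r ^ m ∈ tsupport φ := subset_tsupport _ hm
  have e : nd277 (g * r ^ m) = nd277 g * (2 : ℝ) ^ m := by
    rw [nd277_mul hN, nd277_zpow hN hr]
  have l1 : nd277 x₁ ≤ nd277 g * (2 : ℝ) ^ m := by
    rw [← e]; exact h₁ hmem
  have l2 : nd277 g * (2 : ℝ) ^ m ≤ nd277 x₂ := by
    rw [← e]; exact h₂ hmem
  constructor
  · rw [← Int.le_zpow_iff_clog_le (by norm_num : 1 < 2) (div_pos ha hg)]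
    rw [div_le_iff₀ hg]
    push_cast
    linarith
  · rw [← Int.zpow_le_iff_le_log (by norm_num : 1 < 2) (div_pos hb hg)]
    rw [le_div_iff₀ hg]
    push_cast
    linarith

theorem summable_ray277 (hN : T1.AdNormC K) {r : G K} (hr : IsRayGen r)
    {φ : G K → ℂ} (hφ : HasCompactSupport φ) (g : G K) :
    Summable fun m : ℤ => φ (g * r ^ m) :=
  summable_of_finite_support (finite_ray_support277 hN hr hφ g)

/-- `T5.flat` is additive on compactly supported functions. -/
theorem flat_add277 (hN : T1.AdNormC K) {r : G K} (hr : IsRayGen r)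
    {φ₁ φ₂ : G K → ℂ} (h₁ : HasCompactSupport φ₁) (h₂ : HasCompactSupport φ₂) (g : G K) :
    flat r (fun x => φ₁ x + φ₂ x) g = flat r φ₁ g + flat r φ₂ g := by
  show ∑' m : ℤ, (φ₁ (g * r ^ m) + φ₂ (g * r ^ m)) = _
  exact (summable_ray277 hN hr h₁ g).tsum_add (summable_ray277 hN hr h₂ g)

/-- `T5.twTerm` is additive on compactly supported functions. -/
theorem twTerm_add277 (hN : T1.AdNormC K) {r : G K} (hr : IsRayGen r) (s : AdelicAut K)
    {φ₁ φ₂ : G K → ℂ} (h₁ : HasCompactSupport φ₁) (h₂ : HasCompactSupport φ₂)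
    (δ : GL (Fin 2) K) (x : G K) :
    twTerm r s (fun y => φ₁ y + φ₂ y) δ x = twTerm r s φ₁ δ x + twTerm r s φ₂ δ x :=
  flat_add277 hN hr h₁ h₂ _

/-- `T5.flat` commutes with scalars. -/
theorem flat_smul277 (r : G K) (c : ℂ) (φ : G K → ℂ) (g : G K) :
    flat r (fun x => c * φ x) g = c * flat r φ g := by
  show ∑' m : ℤ, c * φ (g * r ^ m) = c * ∑' m : ℤ, φ (g * r ^ m)
  exact tsum_mul_left

end Fermat.Agent.LT.T7.H277
end
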