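import Mathlib
import Fermat.Agent.LT.T7.Matching
import Fermat.Agent.LT.T6.H277.Companion

/-!
# Row LT, tower T7, leaf T7.G1 (helper277, SPARE): the algebra of the class bijection

* `normUpTo_eq_twNorm277`: bridge `T5.AdelicAut.normUpTo` = `T6.twNorm`;
* `normUpTo_conj277`: the norm of `g⁻¹ δ σ(g)` is `g⁻¹ N(δ) g` when `σ^l = 1`;
* `noRoot_of_ellRegOver277`, `isEll_of_noRoot277`: elliptic regular over the fixed field ⇒
  elliptic in the sense of T6;
* `isConj_of_map277`: two elliptic elements of `GL₂(K)` which are conjugate in `GL₂(K')` are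
  conjugate in `GL₂(K)` (companion matrix);
* `isCyclicData277`: `IsCompData` ⇒ `T6.IsCyclicData`.
OFF-MAIN.
-/

set_option autoImplicit false
open IsDedekindDomain NumberField
open scoped MatrixGroups

noncomputable section
namespace Fermat.Agent.LT.T7.H277

open Fermat.Agent.LT.H556.A0 Fermat.Agent.LT

/-! ## Trace and determinant under conjugation and base change -/

section Field

variable {k : Type} [Field k]

theorem trace_conj277 {a b : GL (Fin 2) k} (h : IsConj a b) :
    (a : Matrix (Fin 2) (Fin 2) k).trace = (b : Matrix (Fin 2) (Fin 2) k).trace := by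
  obtain ⟨c, rfl⟩ := isConj_iff.1 h
  exact (Matrix.trace_units_conj c (a : Matrix (Fin 2) (Fin 2) k)).symm

theorem det_conj277 {a b : GL (Fin 2) k} (h : IsConj a b) :
    (a : Matrix (Fin 2) (Fin 2) k).det = (b : Matrix (Fin 2) (Fin 2) k).det := by
  obtain ⟨c, rfl⟩ := isConj_iff.1 h
  exact (Matrix.det_units_conj c (a : Matrix (Fin 2) (Fin 2) k)).symm

theorem trace_map277 {k' : Type} [Field k'] (i : k →+* k') (γ : GL (Fin 2) k) :
    ((Matrix.GeneralLinearGroup.map i γ : GL (Fin 2) k') : Matrix (Fin 2) (Fin 2) k').trace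
      = i (γ : Matrix (Fin 2) (Fin 2) k).trace := by
  show ((γ : Matrix (Fin 2) (Fin 2) k).map i).trace = _
  rw [Matrix.trace_fin_two, Matrix.trace_fin_two]
  simp

theorem det_map277 {k' : Type} [Field k'] (i : k →+* k') (γ : GL (Fin 2) k) :
    ((Matrix.GeneralLinearGroup.map i γ : GL (Fin 2) k') : Matrix (Fin 2) (Fin 2) k').det
      = i (γ : Matrix (Fin 2) (Fin 2) k).det := by
  show ((γ : Matrix (Fin 2) (Fin 2) k).map i).det = _
  rw [Matrix.det_fin_two, Matrix.det_fin_two]
  simp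

/-- `γ` has no eigenvalue in `k`. -/
def NoRoot277 (γ : GL (Fin 2) k) : Prop :=
  ∀ x : k, x ^ 2 - (γ : Matrix (Fin 2) (Fin 2) k).trace * x
    + (γ : Matrix (Fin 2) (Fin 2) k).det ≠ 0

theorem noRoot_conj277 {a b : GL (Fin 2) k} (h : IsConj a b) (ha : NoRoot277 a) :
    NoRoot277 b := by
  intro x
  rw [← trace_conj277 h, ← det_conj277 h]
  exact ha x

/-- No eigenvalue in `k` (characteristic not `2`) ⇒ elliptic in the sense of T6. -/
theorem isEll_of_noRoot277 [CharZero k] {γ : GL (Fin 2) k} (h : NoRoot277 γ) : T6.IsEll γ := by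
  refine ⟨?_, h⟩
  show IsUnit (T6.disc γ)
  rw [isUnit_iff_ne_zero]
  intro h0
  have h0' : (γ : Matrix (Fin 2) (Fin 2) k).trace ^ 2
      - 4 * (γ : Matrix (Fin 2) (Fin 2) k).det = 0 := h0
  apply h ((γ : Matrix (Fin 2) (Fin 2) k).trace / 2)
  have h2 : (2 : k) ≠ 0 := two_ne_zero
  field_simp
  linear_combination (-1 : k) * h0'

theorem noRoot_of_isEll277 {γ : GL (Fin 2) k} (h : T6.IsEll γ) : NoRoot277 γ := h.2

/-- An element without eigenvalue is not scalar. -/
theorem not_scalar_of_noRoot277 {γ : GL (Fin 2) k} (h : NoRoot277 γ) (c : k) :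
    (γ : Matrix (Fin 2) (Fin 2) k) ≠ c • (1 : Matrix (Fin 2) (Fin 2) k) := by
  intro hc
  apply h c
  rw [hc, Matrix.trace_fin_two, Matrix.det_fin_two]
  simp
  ring

/-- Two elements of `GL₂(k)` without eigenvalue and with the same trace and determinant are
conjugate. -/
theorem isConj_of_trace_det277 {a b : GL (Fin 2) k} (ha : NoRoot277 a)
    (ht : (a : Matrix (Fin 2) (Fin 2) k).trace = (b : Matrix (Fin 2) (Fin 2) k).trace)
    (hd : (a : Matrix (Fin 2) (Fin 2) k).det = (b : Matrix (Fin 2) (Fin 2) k).det) :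
    IsConj a b := by
  have hb : NoRoot277 b := by
    intro x
    rw [← ht, ← hd]
    exact ha x
  obtain ⟨x, hx⟩ := T6.H277.companionC277 k (a : Matrix (Fin 2) (Fin 2) k)
    (not_scalar_of_noRoot277 ha)
  obtain ⟨y, hy⟩ := T6.H277.companionC277 k (b : Matrix (Fin 2) (Fin 2) k)
    (not_scalar_of_noRoot277 hb)
  have hx' : x⁻¹ * a * x = y⁻¹ * b * y := by
    apply Units.ext
    show ((x⁻¹ : GL (Fin 2) k) : Matrix (Fin 2) (Fin 2) k) * (a : Matrix (Fin 2) (Fin 2) k)
        * (x : Matrix (Fin 2) (Fin 2) k)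
      = ((y⁻¹ : GL (Fin 2) k) : Matrix (Fin 2) (Fin 2) k) * (b : Matrix (Fin 2) (Fin 2) k)
        * (y : Matrix (Fin 2) (Fin 2) k)
    rw [hx, hy, ht, hd]
  rw [isConj_iff]
  refine ⟨y * x⁻¹, ?_⟩
  have : a = x * (y⁻¹ * b * y) * x⁻¹ := by
    rw [← hx']; group
  rw [this]; group

/-- Two elements of `GL₂(k)`, one of them without eigenvalue, which are conjugate in `GL₂(k')`
are conjugate in `GL₂(k)`. -/
theorem isConj_of_map277 {k' : Type} [Field k'] (i : k →+* k') {a b : GL (Fin 2) k}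
    (ha : NoRoot277 a)
    (h : IsConj (Matrix.GeneralLinearGroup.map i a) (Matrix.GeneralLinearGroup.map i b)) :
    IsConj a b := by
  apply isConj_of_trace_det277 ha
  · apply i.injective
    rw [← trace_map277, ← trace_map277]
    exact trace_conj277 h
  · apply i.injective
    rw [← det_map277, ← det_map277]
    exact det_conj277 h

theorem isConj_map277 {k' : Type} [Field k'] (i : k →+* k') {a b : GL (Fin 2) k}
    (h : IsConj a b) :
    IsConj (Matrix.GeneralLinearGroup.map i a) (Matrix.GeneralLinearGroup.map i b) := by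
  obtain ⟨c, rfl⟩ := isConj_iff.1 h
  rw [isConj_iff]
  exact ⟨Matrix.GeneralLinearGroup.map i c, by simp⟩

end Field

/-! ## The norm -/

section Norm

variable {K : Type} [Field K] [NumberField K]

theorem normUpTo_eq_twNorm277 (s : T5.AdelicAut K) (n : ℕ) (δ : GL (Fin 2) K) :
    s.normUpTo n δ = T6.twNorm s.σ n δ := by
  induction n with
  | zero => rfl
  | succ n ih =>
    show δ * s.onRat (s.normUpTo n δ) = δ * T6.glAut s.σ (T6.twN (T6.glAut s.σ) n δ)
    rw [ih]
    rfl

theorem normUpTo_one277 (s : T5.AdelicAut K) (δ : GL (Fin 2) K) : s.normUpTo 1 δ = δ := by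
  show δ * s.onRat 1 = δ
  rw [map_one, mul_one]

/-- `N_n(g⁻¹ δ σ(g)) = g⁻¹ N_n(δ) σⁿ(g)`. -/
theorem normUpTo_twConj277 (s : T5.AdelicAut K) (n : ℕ) (δ g : GL (Fin 2) K) :
    s.normUpTo n (g⁻¹ * δ * s.onRat g) = g⁻¹ * s.normUpTo n δ * (s.onRat^[n]) g := by
  induction n with
  | zero =>
    show (1 : GL (Fin 2) K) = g⁻¹ * 1 * g
    simp
  | succ n ih =>
    show g⁻¹ * δ * s.onRat g * s.onRat (s.normUpTo n (g⁻¹ * δ * s.onRat g))
      = g⁻¹ * (δ * s.onRat (s.normUpTo n δ)) * (s.onRat^[n + 1]) g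
    rw [ih, Function.iterate_succ_apply']
    simp only [map_mul, map_inv]
    group

theorem onRat_iterate277 (s : T5.AdelicAut K) (n : ℕ) (g : GL (Fin 2) K) :
    (s.onRat^[n]) g = Matrix.GeneralLinearGroup.map (((s.σ ^ n : K ≃+* K)) : K →+* K) g := by
  induction n with
  | zero =>
    apply Units.ext
    ext i j
    simp [Matrix.GeneralLinearGroup.map]
  | succ n ih =>
    rw [Function.iterate_succ_apply', ih]
    apply Units.ext
    ext i j
    show s.σ (((s.σ ^ n : K ≃+* K)) ((g : Matrix (Fin 2) (Fin 2) K) i j))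
      = ((s.σ ^ (n + 1) : K ≃+* K)) ((g : Matrix (Fin 2) (Fin 2) K) i j)
    rw [pow_succ']
    rfl

theorem onRat_iterate_of_pow277 (s : T5.AdelicAut K) (l : ℕ)
    (h : ∀ x : K, (s.σ ^ l) x = x) (g : GL (Fin 2) K) : (s.onRat^[l]) g = g := by
  rw [onRat_iterate277]
  apply Units.ext
  ext i j
  exact h _

/-- `σ`-conjugate elements have conjugate norms (when `σ^l = 1`). -/
theorem isConj_normUpTo277 (s : T5.AdelicAut K) (l : ℕ) (h : ∀ x : K, (s.σ ^ l) x = x)
    {δ δ' : GL (Fin 2) K} (hc : T5.TwConj s δ δ') :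
    IsConj (s.normUpTo l δ) (s.normUpTo l δ') := by
  obtain ⟨g, rfl⟩ := hc
  rw [normUpTo_twConj277, onRat_iterate_of_pow277 s l h, isConj_iff]
  exact ⟨g⁻¹, by simp⟩

omit [NumberField K] in
/-- Elliptic regular over a subfield ⇒ no eigenvalue in the subfield. -/
theorem noRoot_of_ellRegOver277 (k : Subfield K) {γ : GL (Fin 2) K}
    (h : T5.IsEllRegOver k γ) (x : K) (hx : x ∈ k) :
    x ^ 2 - (γ : Matrix (Fin 2) (Fin 2) K).trace * x
      + (γ : Matrix (Fin 2) (Fin 2) K).det ≠ 0 := by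
  obtain ⟨Q, hQ, hQc⟩ := h
  intro h0
  have hdeg : (Q.map (algebraMap k K)).degree = 2 := by
    rw [hQc, Matrix.charpoly_degree_eq_dim]
    simp
  have hdegQ : Q.degree = 2 := by
    rw [← hdeg, Polynomial.degree_map]
  have hroot : Polynomial.eval (⟨x, hx⟩ : k) Q = 0 := by
    apply (algebraMap k K).injective
    rw [map_zero, ← Polynomial.eval_map_apply, hQc, Matrix.charpoly_fin_two]
    simp only [Polynomial.eval_add, Polynomial.eval_sub, Polynomial.eval_pow,
      Polynomial.eval_X, Polynomial.eval_mul, Polynomial.eval_C]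
    exact h0
  have h1 := Polynomial.degree_eq_one_of_irreducible_of_root hQ hroot
  rw [hdegQ] at h1
  exact absurd h1 (by decide)

end Norm

/-! ## The cyclic data -/

section Data

variable {K K' : Type} [Field K] [NumberField K] [Field K'] [NumberField K'] [Algebra K K']

theorem isCyclicData277 {D : T7.CompData K K'} (hD : T7.IsCompData D) :
    T6.IsCyclicData K K' D.l (algebraMap K K') D.s.σ where
  pos := hD.cyc.pos
  fix_i := fun x => (hD.cyc.fixed _).1 ((hD.base _).2 ⟨x, rfl⟩)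
  fixed := fun y hy => (hD.base y).1 ((hD.cyc.fixed y).2 hy)
  order := hD.cyc.pow_eq
  faithful := hD.cyc.faithful

/-- If the norm of `δ` is elliptic regular over the fixed field and conjugate to (the image of)
`γ ∈ GL₂(K)` then `γ` has no eigenvalue in `K`. -/
theorem noRoot_of_isNormOf277 {D : T7.CompData K K'} (hD : T7.IsCompData D)
    {δ : GL (Fin 2) K'} {γ : GL (Fin 2) K} (hreg : T5.IsEllRegOver D.k (D.s.normUpTo D.l δ))
    (hn : T7.IsNormOf D δ γ) : NoRoot277 γ := by
  intro x h0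
  have hx : algebraMap K K' x ∈ D.k := (hD.base _).2 ⟨x, rfl⟩
  apply noRoot_of_ellRegOver277 D.k hreg (algebraMap K K' x) hx
  rw [trace_conj277 hn, det_conj277 hn, trace_map277, det_map277, ← map_pow, ← map_mul,
    ← map_sub, ← map_add, h0, map_zero]

/-- The norm of `δ` is regular if it is conjugate to an elliptic element of `GL₂(K)`. -/
theorem isReg_of_isNormOf277 {D : T7.CompData K K'}
    {δ : GL (Fin 2) K'} {γ : GL (Fin 2) K} (hγ : T6.IsEll γ)
    (hn : T7.IsNormOf D δ γ) : T6.IsReg (T6.twNorm D.s.σ D.l δ) := by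
  rw [← normUpTo_eq_twNorm277]
  show IsUnit (T6.disc (D.s.normUpTo D.l δ))
  rw [isUnit_iff_ne_zero]
  have h1 : T6.disc (D.s.normUpTo D.l δ) = algebraMap K K' (T6.disc γ) := by
    show (_ : K') ^ 2 - 4 * _ = algebraMap K K' (_ ^ 2 - 4 * _)
    rw [trace_conj277 hn, det_conj277 hn, trace_map277, det_map277, map_sub, map_mul, map_pow,
      map_ofNat]
  rw [h1]
  intro h0
  have : T6.disc γ = 0 := (algebraMap K K').injective (by rw [h0, map_zero])
  exact (isUnit_iff_ne_zero.1 hγ.1) this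

end Data

end Fermat.Agent.LT.T7.H277
end
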