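import Mathlib
import Fermat.Agent.LT.T5.Spec
import Fermat.Agent.LT.T1.Spec
import Fermat.Agent.LT.T5.H277.Ray

/-!
# Row LT, tower T7, leaf T7.G1 (helper277, SPARE): twisted fundamental domains exist

For a frame `(μ, F)` of T5 and every `δ ∈ GL₂(K)` the `σ`-centraliser `twStab s δ` has a strict
Borel fundamental domain in the slab: the union of the translates `a F` of the fundamental
domain of `GL₂(K)` by a set `A` of representatives of `twStab s δ \ GL₂(K)`.  Uses the product
formula (`T1.AdNormC`) for the `GL₂(K)`-invariance of the slab and the countability of `GL₂(K)`.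
OFF-MAIN.
-/

set_option autoImplicit false
open IsDedekindDomain NumberField MeasureTheory
open scoped MatrixGroups
open Fermat.Agent.LT.H556.A0 Fermat.Agent.LT.T5

noncomputable section
namespace Fermat.Agent.LT.T7.H277

open Fermat.Agent.LT.T5.H277

variable {K : Type} [Field K] [NumberField K]

attribute [local instance] Fermat.Agent.LT.T5.instMeasurableSpaceG

/-- The slab is invariant under left translation by `GL₂(K)`. -/
theorem slab_ratG_mul277 (hN : T1.AdNormC K) (γ : GL (Fin 2) K) (g : G K) :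
    (ratG γ * g ∈ slab K) ↔ g ∈ slab K := by
  rw [mem_slab_iff277, mem_slab_iff277, nd277_mul hN, nd277_ratG hN, one_mul]

/-- The translate of a Borel set by an element of `GL₂(𝔸_K)` is Borel. -/
theorem measurableSet_mulLeft_image277 (u : G K) {F : Set (G K)} (hF : MeasurableSet F) :
    MeasurableSet ((fun x : G K => u * x) '' F) := by
  have : BorelSpace (G K) := borelSpaceG277
  exact ((Homeomorph.mulLeft u).measurableEmbedding.measurableSet_image).mpr hF

/-- **Twisted fundamental domains exist.** -/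
theorem exists_isTwDomain277 (hN : T1.AdNormC K) {μ : Measure (G K)} {F : Set (G K)}
    (hF : IsFrame μ F) (s : AdelicAut K) (δ : GL (Fin 2) K) :
    ∃ Fδ : Set (G K), IsTwDomain s δ Fδ := by
  obtain ⟨A, hA, -⟩ := (twStab s δ).exists_isComplement_right 1
  have hcount : A.Countable := by
    have : Countable (GL (Fin 2) K) := countable_GL277 K
    exact Set.to_countable A
  refine ⟨⋃ a ∈ A, (fun x : G K => ratG a * x) '' F, ?_, ?_, ?_⟩
  · exact MeasurableSet.biUnion hcount
      (fun a _ => measurableSet_mulLeft_image277 (ratG a) hF.meas)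
  · intro y hy
    simp only [Set.mem_iUnion, Set.mem_image] at hy
    obtain ⟨a, -, x, hx, rfl⟩ := hy
    exact (slab_ratG_mul277 hN a x).2 (hF.sub hx)
  · intro g hg
    obtain ⟨γ0, hγ0, hγ0u⟩ := hF.strict g hg
    -- membership criterion
    have key : ∀ h : GL (Fin 2) K,
        (ratG h * g ∈ ⋃ a ∈ A, (fun x : G K => ratG a * x) '' F) ↔ h * γ0⁻¹ ∈ A := by
      intro h
      simp only [Set.mem_iUnion, Set.mem_image]
      constructor
      · rintro ⟨a, ha, x, hx, hxe⟩
        have hx' : x = ratG (a⁻¹ * h) * g := by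
          rw [map_mul, map_inv, mul_assoc, ← hxe, inv_mul_cancel_left]
        have h1 : a⁻¹ * h = γ0 := hγ0u _ (by
          show ratG (a⁻¹ * h) * g ∈ F
          rw [← hx']; exact hx)
        have h2 : h * γ0⁻¹ = a := by
          rw [← h1]; group
        rw [h2]; exact ha
      · intro ha
        refine ⟨h * γ0⁻¹, ha, ratG γ0 * g, hγ0, ?_⟩
        rw [← mul_assoc, ← map_mul, inv_mul_cancel_right]
    obtain ⟨⟨h0, a0⟩, hdec, huniq⟩ := hA.existsUnique γ0⁻¹
    have hdec : (h0 : GL (Fin 2) K) * (a0 : GL (Fin 2) K) = γ0⁻¹ := hdec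
    have hmem : (h0 : GL (Fin 2) K)⁻¹ ∈ twStab s δ := (twStab s δ).inv_mem h0.2
    refine ⟨⟨(h0 : GL (Fin 2) K)⁻¹, hmem⟩, ?_, ?_⟩
    · show ratG ((h0 : GL (Fin 2) K)⁻¹) * g ∈ _
      rw [key]
      have : (h0 : GL (Fin 2) K)⁻¹ * γ0⁻¹ = a0 := by
        rw [← hdec]; simp
      rw [this]; exact a0.2
    · intro h hh
      have hh' : (h : GL (Fin 2) K) * γ0⁻¹ ∈ A := (key _).1 hh
      have hinv : (h : GL (Fin 2) K)⁻¹ ∈ ((twStab s δ : Subgroup (GL (Fin 2) K)) : Set (GL (Fin 2) K)) :=
        (twStab s δ).inv_mem h.2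
      have := huniq (⟨(h : GL (Fin 2) K)⁻¹, hinv⟩, ⟨(h : GL (Fin 2) K) * γ0⁻¹, hh'⟩)
        (by show (h : GL (Fin 2) K)⁻¹ * ((h : GL (Fin 2) K) * γ0⁻¹) = γ0⁻¹; simp)
      have h3 : (h : GL (Fin 2) K)⁻¹ = (h0 : GL (Fin 2) K) :=
        congrArg (fun x => (x.1 : GL (Fin 2) K)) this
      apply Subtype.ext
      show (h : GL (Fin 2) K) = (h0 : GL (Fin 2) K)⁻¹
      rw [← h3, inv_inv]

end Fermat.Agent.LT.T7.H277
end
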