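import Mathlib
import Fermat.Agent.LT.T7.Matching
import Fermat.Agent.LT.T7.H277.GeomAlg
import Fermat.Agent.LT.T7.H277.TwDomain
import Fermat.Agent.LT.T1.H309.AdNorm

/-!
# Row LT, tower T7, LEAF T7.G1 = `GeomC` (class bijection) -- helper277 (SPARE), OFF-MAIN

PROVED: `geomC277 (K K') : T7.GeomC K K'`, VERBATIM vs `T7/Matching.lean` (sha256 0549163e),
UNCONDITIONAL (every pair of number fields, every `CompData`).

Route (the header proof of `GeomC`):
* twisted fundamental domains exist for every class (`exists_isTwDomain277`, product formula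
  `T1.H309.adNormC309`), so `T5.GeomUnfold` can be applied upstairs and downstairs with the
  representatives `Quotient.out`;
* a class upstairs with a non-zero term has elliptic regular norm (`IsTwRegular`), which is
  conjugate to an elliptic `γ ∈ GL₂(K)` (`T6.NormClassC`, `noRoot_of_isNormOf277`);
* two elliptic elements of `GL₂(K)` conjugate in `GL₂(K')` are conjugate in `GL₂(K)`
  (`isConj_of_map277`), the norm is injective on the classes (`T6.NormInjC`);
* the classes downstairs which are not norms contribute `0` (`nonnorm`, regularity), the others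
  the same as upstairs (`norm`); `finsum_mem_eq_of_bijOn`.
-/

set_option autoImplicit false
open IsDedekindDomain NumberField MeasureTheory
open scoped MatrixGroups

noncomputable section
namespace Fermat.Agent.LT.T7.H277

open Fermat.Agent.LT.H556.A0 Fermat.Agent.LT

attribute [local instance] Fermat.Agent.LT.T5.instMeasurableSpaceG

section OneField

variable {K : Type} [Field K] [NumberField K]

/-- The component maps as group homomorphisms. -/
def infGL277 (w : InfinitePlace K) : G K →* GL (Fin 2) ℂ :=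
  Matrix.GeneralLinearGroup.map (T5.infHom w)

/-- The component maps as group homomorphisms. -/
def finGL277 (v : HeightOneSpectrum (𝓞 K)) : G K →* GL (Fin 2) (v.adicCompletion K) :=
  Matrix.GeneralLinearGroup.map (T5.finHom v)

theorem infGL_val277 (w : InfinitePlace K) (g : G K) :
    ((infGL277 w g : GL (Fin 2) ℂ) : Matrix (Fin 2) (Fin 2) ℂ) = infComp w g := rfl

theorem finGL_val277 (v : HeightOneSpectrum (𝓞 K)) (g : G K) :
    ((finGL277 v g : GL (Fin 2) (v.adicCompletion K)) :
      Matrix (Fin 2) (Fin 2) (v.adicCompletion K)) = finComp v g := rfl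

/-- The scalar matrices of `GL₂(ℂ)`. -/
def scalGL277 : ℂˣ →* GL (Fin 2) ℂ :=
  Units.map (Matrix.scalar (Fin 2) : ℂ →+* Matrix (Fin 2) (Fin 2) ℂ).toMonoidHom

theorem scalGL_val277 (u : ℂˣ) :
    ((scalGL277 u : GL (Fin 2) ℂ) : Matrix (Fin 2) (Fin 2) ℂ)
      = Matrix.diagonal (fun _ => (u : ℂ)) := rfl

/-- The powers of the ray generator lie on the central ray. -/
theorem isCentralRay_zpow277 {r : G K} (hr : T5.IsRayGen r) (m : ℤ) :
    T5.IsCentralRay (r ^ m) := by
  obtain ⟨hfin, t, ht, -, hinf⟩ := hr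
  have htC : (t : ℂ) ≠ 0 := Complex.ofReal_ne_zero.2 ht.ne'
  refine ⟨fun v => ?_, t ^ m, zpow_pos ht m, fun w => ?_⟩
  · have h1 : finGL277 v r = 1 := by
      apply Units.ext
      rw [finGL_val277]
      exact hfin v
    show finComp v (r ^ m) = 1
    rw [← finGL_val277, map_zpow, h1, one_zpow]
    rfl
  · have h1 : infGL277 w r = scalGL277 (Units.mk0 (t : ℂ) htC) := by
      apply Units.ext
      rw [infGL_val277, scalGL_val277, hinf w]
      rfl
    rw [← infGL_val277, map_zpow, h1, ← map_zpow, scalGL_val277]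
    congr 1
    funext _
    rw [Units.val_zpow_eq_zpow_val, Units.val_mk0, Complex.ofReal_zpow]

/-- A non-zero term of the twisted kernel on the diagonal forces the norm to be elliptic
regular. -/
theorem ellReg_of_twTerm_ne277 {r : G K} (hr : T5.IsRayGen r) {s : T5.AdelicAut K} {l : ℕ}
    {k : Subfield K} {φ : G K → ℂ} (hφ : T5.IsTwRegular s l k φ) {δ : GL (Fin 2) K} {x : G K}
    (h : T5.twTerm r s φ δ x ≠ 0) : T5.IsEllRegOver k (s.normUpTo l δ) := by
  by_contra hne
  apply h
  show ∑' m : ℤ, φ (x⁻¹ * T5.ratG δ * s.onG x * r ^ m) = 0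
  have h0 : ∀ m : ℤ, φ (x⁻¹ * T5.ratG δ * s.onG x * r ^ m) = 0 := by
    intro m
    by_contra hm
    exact hne (hφ x δ (r ^ m) (isCentralRay_zpow277 hr m) hm)
  simp [h0]

/-- The integral of an identically vanishing term. -/
theorem integral_twTerm_eq_zero277 {r : G K} {s : T5.AdelicAut K} {φ : G K → ℂ}
    {δ : GL (Fin 2) K} (μ : Measure (G K)) (A : Set (G K))
    (h : ∀ x : G K, T5.twTerm r s φ δ x = 0) :
    ∫ x in A, T5.twTerm r s φ δ x ∂μ = 0 := by
  have : T5.twTerm r s φ δ = fun _ => 0 := funext h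
  rw [this]
  simp

/-- Conjugacy in `GL₂(K)` is `σ`-conjugacy for the trivial automorphism. -/
theorem twConj_id_iff277 (a b : GL (Fin 2) K) :
    T5.TwConj (T5.AdelicAut.id K) a b ↔ IsConj a b := by
  rw [isConj_iff]
  constructor
  · rintro ⟨g, hg⟩
    rw [T5.onRat_id] at hg
    exact ⟨g⁻¹, by rw [hg, inv_inv]⟩
  · rintro ⟨c, hc⟩
    refine ⟨c⁻¹, ?_⟩
    rw [T5.onRat_id, inv_inv, hc]

end OneField

section TwoFields

variable (K K' : Type) [Field K] [NumberField K] [Field K'] [NumberField K'] [Algebra K K']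

/-- **LEAF T7.G1 = `GeomC`, VERBATIM, UNCONDITIONAL.** -/
theorem geomC277 : T7.GeomC K K' := by
  intro D hD hU' hU hNC hNI φ' f hφ' hr' hf hr hm
  classical
  have hcd : T6.IsCyclicData K K' D.l (algebraMap K K') D.s.σ := isCyclicData277 hD
  obtain ⟨-, hU'2⟩ := hU' D.R'.μ D.R'.F D.R'.r hD.frame'.frame hD.frame'.ray hD.aut φ' hφ' hr'
  obtain ⟨-, hU2⟩ := hU D.R.μ D.R.F D.R.r hD.frame.frame hD.frame.ray
    (T5.autPreserves_id D.𝔫 D.R.μ D.R.r) f hf hr
  -- domains
  have hdom' : ∀ δ : GL (Fin 2) K', ∃ Fδ : Set (G K'), T5.IsTwDomain D.s δ Fδ := fun δ =>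
    exists_isTwDomain277 (T1.H309.adNormC309 K') hD.frame'.frame D.s δ
  have hdom : ∀ γ : GL (Fin 2) K, ∃ Fγ : Set (G K),
      T5.IsTwDomain (T5.AdelicAut.id K) γ Fγ := fun γ =>
    exists_isTwDomain277 (T1.H309.adNormC309 K) hD.frame.frame (T5.AdelicAut.id K) γ
  choose Fd' hFd' using hdom'
  choose Fd hFd using hdom
  -- representatives
  let rep' : T5.TwClass D.s → GL (Fin 2) K' := Quotient.out
  let rep : T5.TwClass (T5.AdelicAut.id K) → GL (Fin 2) K := Quotient.out
  have hrep' : ∀ c, Quotient.mk (T5.twSetoid D.s) (rep' c) = c := fun c => Quotient.out_eq c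
  have hrep : ∀ c, Quotient.mk (T5.twSetoid (T5.AdelicAut.id K)) (rep c) = c :=
    fun c => Quotient.out_eq c
  obtain ⟨-, e1⟩ := hU'2 rep' (fun c => Fd' (rep' c)) hrep' (fun c => hFd' _)
  obtain ⟨-, e2⟩ := hU2 rep (fun c => Fd (rep c)) hrep (fun c => hFd _)
  show (∫ x in D.R'.F, T5.twKer D.R'.r D.s φ' x x ∂D.R'.μ)
    = ∫ x in D.R.F, T5.twKer D.R.r (T5.AdelicAut.id K) f x x ∂D.R.μ
  rw [e1, e2]
  -- the relation between the classes
  let rel : T5.TwClass D.s → T5.TwClass (T5.AdelicAut.id K) → Prop := fun c' c =>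
    T7.IsNormOf D (rep' c') (rep c) ∧ T6.IsEll (rep c)
  -- (R1) the relation is functional
  have R1 : ∀ c' c₁ c₂, rel c' c₁ → rel c' c₂ → c₁ = c₂ := by
    intro c' c₁ c₂ h₁ h₂
    have hc : IsConj (Matrix.GeneralLinearGroup.map (algebraMap K K') (rep c₁))
        (Matrix.GeneralLinearGroup.map (algebraMap K K') (rep c₂)) := h₁.1.symm.trans h₂.1
    have hc' : IsConj (rep c₁) (rep c₂) :=
      isConj_of_map277 (algebraMap K K') (noRoot_of_isEll277 h₁.2) hc
    rw [← hrep c₁, ← hrep c₂]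
    exact Quotient.sound ((twConj_id_iff277 _ _).2 hc')
  -- (R2) the relation is injective
  have R2 : ∀ c₁' c₂' c, rel c₁' c → rel c₂' c → c₁' = c₂' := by
    intro c₁' c₂' c h₁ h₂
    have hc : IsConj (T6.twNorm D.s.σ D.l (rep' c₁')) (T6.twNorm D.s.σ D.l (rep' c₂')) := by
      rw [← normUpTo_eq_twNorm277, ← normUpTo_eq_twNorm277]
      exact h₁.1.trans h₂.1.symm
    have hreg : T6.IsReg (T6.twNorm D.s.σ D.l (rep' c₁')) := isReg_of_isNormOf277 h₁.2 h₁.1
    obtain ⟨x, hx⟩ := hNI K K' D.l (algebraMap K K') D.s.σ hcd (rep' c₁') (rep' c₂') hreg hc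
    rw [← hrep' c₁', ← hrep' c₂']
    exact Quotient.sound ⟨x, hx⟩
  -- (R3) a class upstairs with a non-zero term is related to a class downstairs
  have R3 : ∀ c', (∃ x, T5.twTerm D.R'.r D.s φ' (rep' c') x ≠ 0) → ∃ c, rel c' c := by
    rintro c' ⟨x, hx⟩
    have hreg : T5.IsEllRegOver D.k (D.s.normUpTo D.l (rep' c')) :=
      ellReg_of_twTerm_ne277 hD.frame'.ray hr' hx
    obtain ⟨γ, hγ⟩ := hNC K K' D.l (algebraMap K K') D.s.σ hcd (rep' c')
    have hn : T7.IsNormOf D (rep' c') γ := by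
      show IsConj (D.s.normUpTo D.l (rep' c')) _
      rw [normUpTo_eq_twNorm277]
      exact hγ
    have hnr : NoRoot277 γ := noRoot_of_isNormOf277 hD hreg hn
    have hq : T5.TwConj (T5.AdelicAut.id K)
        (rep (Quotient.mk (T5.twSetoid (T5.AdelicAut.id K)) γ)) γ :=
      Quotient.exact (hrep (Quotient.mk (T5.twSetoid (T5.AdelicAut.id K)) γ))
    have hq' : IsConj (rep (Quotient.mk (T5.twSetoid (T5.AdelicAut.id K)) γ)) γ :=
      (twConj_id_iff277 _ _).1 hq
    refine ⟨Quotient.mk (T5.twSetoid (T5.AdelicAut.id K)) γ, ?_, ?_⟩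
    · exact hn.trans (isConj_map277 (algebraMap K K') hq'.symm)
    · exact isEll_of_noRoot277 (noRoot_conj277 hq'.symm hnr)
  -- the two families of integrals
  let I' : T5.TwClass D.s → ℂ := fun c' =>
    ∫ x in Fd' (rep' c'), T5.twTerm D.R'.r D.s φ' (rep' c') x ∂D.R'.μ
  let I : T5.TwClass (T5.AdelicAut.id K) → ℂ := fun c =>
    ∫ x in Fd (rep c), T5.twTerm D.R.r (T5.AdelicAut.id K) f (rep c) x ∂D.R.μ
  show ∑ᶠ c', I' c' = ∑ᶠ c, I c
  let S' : Set (T5.TwClass D.s) := {c' | ∃ c, rel c' c}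
  let S : Set (T5.TwClass (T5.AdelicAut.id K)) := {c | ∃ c', rel c' c}
  -- (1) the classes upstairs outside `S'` contribute `0`
  have Z' : ∀ c', c' ∉ S' → I' c' = 0 := by
    intro c' hc'
    apply integral_twTerm_eq_zero277
    intro x
    by_contra hx
    exact hc' (R3 c' ⟨x, hx⟩)
  -- (2) the classes downstairs outside `S` contribute `0`
  have Z : ∀ c, c ∉ S → I c = 0 := by
    intro c hc
    by_cases hE : T6.IsEll (rep c)
    · apply hm.nonnorm (rep c) hE _ (Fd (rep c)) (hFd _)
      rintro ⟨δ, hδ⟩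
      apply hc
      refine ⟨Quotient.mk (T5.twSetoid D.s) δ, ?_, hE⟩
      have hq : T5.TwConj D.s (rep' (Quotient.mk (T5.twSetoid D.s) δ)) δ :=
        Quotient.exact (hrep' (Quotient.mk (T5.twSetoid D.s) δ))
      exact (isConj_normUpTo277 D.s D.l hD.cyc.pow_eq hq).trans hδ
    · apply integral_twTerm_eq_zero277
      intro x
      by_contra hx
      apply hE
      have hreg : T5.IsEllRegOver ⊤ ((T5.AdelicAut.id K).normUpTo 1 (rep c)) :=
        ellReg_of_twTerm_ne277 hD.frame.ray hr hx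
      rw [normUpTo_one277] at hreg
      exact isEll_of_noRoot277 (fun y => noRoot_of_ellRegOver277 ⊤ hreg y (Subfield.mem_top y))
  -- (3) related classes contribute the same
  have E : ∀ c' c, rel c' c → I' c' = I c := by
    intro c' c h
    exact hm.norm (rep' c') (rep c) h.2 h.1 (Fd' (rep' c')) (Fd (rep c)) (hFd' _) (hFd _)
  -- the bijection
  let e : T5.TwClass D.s → T5.TwClass (T5.AdelicAut.id K) := fun c' =>
    if h : ∃ c, rel c' c then h.choose else Quotient.mk _ 1
  have he : ∀ c' (h : ∃ c, rel c' c), rel c' (e c') := by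
    intro c' h
    have : e c' = h.choose := dif_pos h
    rw [this]
    exact h.choose_spec
  have hbij : Set.BijOn e S' S := by
    refine ⟨?_, ?_, ?_⟩
    · intro c' hc'
      exact ⟨c', he c' hc'⟩
    · intro c₁' h₁ c₂' h₂ h12
      have r₁ := he c₁' h₁
      have r₂ := he c₂' h₂
      rw [h12] at r₁
      exact R2 _ _ _ r₁ r₂
    · rintro c ⟨c', hc'⟩
      exact ⟨c', ⟨c, hc'⟩, R1 c' _ _ (he c' ⟨c, hc'⟩) hc'⟩
  have s1 : ∑ᶠ c', I' c' = ∑ᶠ c' ∈ S', I' c' := by
    rw [← finsum_mem_univ]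
    apply finsum_mem_inter_support_eq
    ext c'
    simp only [Set.mem_inter_iff, Set.mem_univ, true_and, Function.mem_support]
    constructor
    · intro h
      refine ⟨?_, h⟩
      by_contra hc'
      exact h (Z' c' hc')
    · exact fun h => h.2
  have s2 : ∑ᶠ c, I c = ∑ᶠ c ∈ S, I c := by
    rw [← finsum_mem_univ]
    apply finsum_mem_inter_support_eq
    ext c
    simp only [Set.mem_inter_iff, Set.mem_univ, true_and, Function.mem_support]
    constructor
    · intro h
      refine ⟨?_, h⟩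
      by_contra hc
      exact h (Z c hc)
    · exact fun h => h.2
  rw [s1, s2]
  exact finsum_mem_eq_of_bijOn e hbij (fun c' hc' => E c' (e c') (he c' hc'))

end TwoFields

end Fermat.Agent.LT.T7.H277
end
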