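import Mathlib
import Fermat.Agent.LT.T7.H277.GeomAlg
import Fermat.Agent.LT.T7.H305.MatchSpec

/-!
# Row LT, tower T7, T7.L2.1.C2.3 LEAF `EllRegC305` (helper277, registry row 2362) -- OFF-MAIN

PROVED: `ellRegC277 K K' : T7.H305.EllRegC305 K K'`, VERBATIM vs `LT/T7/H305/MatchSpec.lean`
(helper305), unconditional.  An elliptic `γ ∈ GL₂(K)` has an irreducible characteristic
polynomial; its image under a field isomorphism `K ≃ k ⊆ K'` is the polynomial `Q`.
-/

set_option autoImplicit false
open AutomorphicForm IsDedekindDomain NumberField MeasureTheory Polynomial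

noncomputable section
namespace Fermat.Agent.LT.T7.H277

open Fermat.Agent.LT Fermat.Agent.LT.H556 Fermat.Agent.LT.H556.A0 Fermat.Agent.LT.T7

/-- The characteristic polynomial of an element of `GL₂` without eigenvalue is irreducible. -/
theorem irreducible_charpoly_of_noRoot277 {k : Type} [Field k] (γ : GL (Fin 2) k)
    (h : ∀ x : k, x ^ 2 - (γ : Matrix (Fin 2) (Fin 2) k).trace * x
      + (γ : Matrix (Fin 2) (Fin 2) k).det ≠ 0) :
    Irreducible (γ : Matrix (Fin 2) (Fin 2) k).charpoly := by
  have hdeg : (γ : Matrix (Fin 2) (Fin 2) k).charpoly.natDegree = 2 := by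
    rw [Matrix.charpoly_natDegree_eq_dim]
    simp
  apply Polynomial.irreducible_of_degree_le_three_of_not_isRoot
  · rw [hdeg]; decide
  · intro x hx
    apply h x
    have := hx
    rw [Polynomial.IsRoot, Matrix.charpoly_fin_two] at this
    simpa only [Polynomial.eval_add, Polynomial.eval_sub, Polynomial.eval_pow,
      Polynomial.eval_X, Polynomial.eval_mul, Polynomial.eval_C] using this

/-- The general form: `γ ∈ GL₂(K)` without eigenvalue in `K`, `j : K →+* K'` with image the
subfield `k`: the image of `γ` is elliptic regular over `k`. -/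
theorem isEllRegOver_map277 {K K' : Type} [Field K] [Field K'] (j : K →+* K')
    (k : Subfield K') (hk : ∀ x : K', x ∈ k ↔ ∃ y : K, j y = x) (γ : GL (Fin 2) K)
    (h : ∀ x : K, x ^ 2 - (γ : Matrix (Fin 2) (Fin 2) K).trace * x
      + (γ : Matrix (Fin 2) (Fin 2) K).det ≠ 0) :
    T5.IsEllRegOver k (Matrix.GeneralLinearGroup.map j γ) := by
  let e : K →+* k := j.codRestrict k (fun x => (hk (j x)).2 ⟨x, rfl⟩)
  have he : (algebraMap k K').comp e = j := by
    ext x
    rfl
  have hm : ((γ : Matrix (Fin 2) (Fin 2) K).charpoly.map e)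
      = (Matrix.GeneralLinearGroup.map e γ : Matrix (Fin 2) (Fin 2) k).charpoly := by
    show _ = ((γ : Matrix (Fin 2) (Fin 2) K).map e).charpoly
    rw [Matrix.charpoly_map]
  refine ⟨(γ : Matrix (Fin 2) (Fin 2) K).charpoly.map e, ?_, ?_⟩
  · rw [hm]
    apply irreducible_charpoly_of_noRoot277
    intro x
    obtain ⟨y, hy⟩ := (hk (x : K')).1 x.2
    have hx : x = e y := Subtype.ext hy.symm
    have h1 := h y
    rw [trace_map277, det_map277, hx, ← map_pow, ← map_mul, ← map_sub, ← map_add]
    exact fun h0 => h1 (e.injective (by rw [h0, map_zero]))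
  · rw [Polynomial.map_map, he]
    show _ = ((γ : Matrix (Fin 2) (Fin 2) K).map j).charpoly
    rw [Matrix.charpoly_map]

section Leaf

variable (K K' : Type) [Field K] [NumberField K] [Field K'] [NumberField K'] [Algebra K K']

/-- **LEAF ELL-REG, VERBATIM.** -/
theorem ellRegC277 : H305.EllRegC305 K K' := by
  intro D hD γ hγ
  refine ⟨isEllRegOver_map277 (algebraMap K K') D.k hD.base γ hγ.2, ?_⟩
  rw [normUpTo_one277]
  have h := isEllRegOver_map277 (RingHom.id K) (⊤ : Subfield K)
    (fun x => ⟨fun _ => ⟨x, rfl⟩, fun _ => Subfield.mem_top x⟩) γ hγ.2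
  have e : Matrix.GeneralLinearGroup.map (RingHom.id K) γ = γ := by
    ext i j
    rfl
  rwa [e] at h

end Leaf

end Fermat.Agent.LT.T7.H277
end
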