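import Mathlib
import Fermat.Agent.LT.T5.Spec
import Fermat.Agent.LT.T1.Spec
import Fermat.Agent.LT.T5.H277.Unfold

/-!
# Row LT, tower T7, ASSET for T7.L2.1 PROJ / KILL (helper277): translation invariance of `∫_F`

For a frame `(μ, F)` with ray generator `r` and a continuous bounded function `Θ` on
`GL₂(𝔸_K)` which is left `GL₂(K)`-invariant and right `r`-invariant,

    ∫_F Θ(x h) dμ(x) = ∫_F Θ(x) dμ(x)        for EVERY `h ∈ GL₂(𝔸_K)`

(`F h` is cut by the tiling `GL₂(𝔸_K) = ⨆ γ F rᵐ` and reassembled).  Consequences for `T5.innerD`: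
right translations are unitary on automorphic functions, `⟨R(h) ψ, χ⟩ = ⟨ψ, R(h⁻¹) χ⟩`.
Inputs: `T1.AdNormC` (product formula).  OFF-MAIN.
-/

set_option autoImplicit false
open IsDedekindDomain NumberField MeasureTheory
open scoped MatrixGroups ComplexConjugate
open Fermat.Agent.LT.H556.A0 Fermat.Agent.LT.T5

noncomputable section
namespace Fermat.Agent.LT.T7.H277

open Fermat.Agent.LT.T5.H277

variable {K : Type} [Field K] [NumberField K]

attribute [local instance] Fermat.Agent.LT.T5.instMeasurableSpaceG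

variable {μ : Measure (G K)} {r : G K} {F : Set (G K)}

theorem zpow_inv_of_ray277 {Θ : G K → ℂ} (hray : ∀ g : G K, Θ (g * r) = Θ g) (m : ℤ)
    (g : G K) : Θ (g * r ^ m) = Θ g := by
  have hn : ∀ (n : ℕ) (g : G K), Θ (g * r ^ n) = Θ g := by
    intro n
    induction n with
    | zero => intro g; simp
    | succ n ih =>
      intro g
      rw [pow_succ, ← mul_assoc, hray, ih]
  cases m with
  | ofNat n => simpa using hn n g
  | negSucc n =>
    have := hn (n + 1) (g * r ^ (Int.negSucc n))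
    rw [← this, mul_assoc, zpow_negSucc, inv_mul_cancel, mul_one]

theorem tile_id277 (i : GL (Fin 2) K × ℤ) (y : G K) :
    tile277 (AdelicAut.id K) r i y = ratG i.1 * y * r ^ i.2 := by
  unfold tile277
  rw [onG_id]

/-- **Translation invariance of the integral over the fundamental domain.** -/
theorem setIntegral_mul_right277 (hN : T1.AdNormC K) (hF : IsFrame μ F) (hr : IsRayGen r)
    {Θ : G K → ℂ} (hc : Continuous Θ) (hb : ∃ C : ℝ, ∀ g : G K, ‖Θ g‖ ≤ C)
    (hl : ∀ (γ : GL (Fin 2) K) (g : G K), Θ (ratG γ * g) = Θ g)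
    (hray : ∀ g : G K, Θ (g * r) = Θ g) (h : G K) :
    ∫ x in F, Θ (x * h) ∂μ = ∫ x in F, Θ x ∂μ := by
  have : BorelSpace (G K) := borelSpaceG277
  have : Countable (GL (Fin 2) K) := countable_GL277 K
  have hP := autPreserves_id (⊤ : Ideal (𝓞 K)) μ r
  obtain ⟨C, hC⟩ := hb
  have hfin : μ F < ⊤ := hF.finite
  -- the translate of `F`
  have hmeasmap : Measurable (fun x : G K => x * h) := (continuous_mul_const _).measurable
  have hmp : MeasurePreserving (fun x : G K => x * h) μ μ := by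
    refine ⟨hmeasmap, ?_⟩
    ext A hA
    rw [Measure.map_apply hmeasmap hA]
    exact hF.right_inv _ A hA
  have hemb : MeasurableEmbedding (fun x : G K => x * h) :=
    (Homeomorph.mulRight h).measurableEmbedding
  set B : Set (G K) := (fun x : G K => x * h) '' F with hB
  have hBm : MeasurableSet B := hemb.measurableSet_image.mpr hF.meas
  have hBfin : μ B < ⊤ := by
    have : μ B = μ F := by
      rw [hB, ← hmp.measure_preimage_emb hemb]
      congr 1
      exact Set.preimage_image_eq _ (mul_left_injective h)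
    rw [this]; exact hfin
  have e1 : ∫ x in F, Θ (x * h) ∂μ = ∫ y in B, Θ y ∂μ :=
    (hmp.setIntegral_image_emb hemb Θ F).symm
  -- integrability
  have hΘB : IntegrableOn Θ B μ :=
    Measure.integrableOn_of_bounded hBfin.ne hc.aestronglyMeasurable
      (Filter.Eventually.of_forall hC)
  have hΘF : IntegrableOn Θ F μ :=
    Measure.integrableOn_of_bounded hfin.ne hc.aestronglyMeasurable
      (Filter.Eventually.of_forall hC)
  have hΦ : Integrable (B.indicator Θ) μ := hΘB.integrable_indicator hBm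
  -- unfold along the tiling
  have e2 := integral_eq_tsum_tile277 (s := AdelicAut.id K) hN hF hr hP hΦ
  rw [integral_indicator hBm] at e2
  -- the pieces of `F`
  set Cs : GL (Fin 2) K × ℤ → Set (G K) := fun i =>
    F ∩ (tile277 (AdelicAut.id K) r i) ⁻¹' B with hCs
  have hCm : ∀ i, MeasurableSet (Cs i) := fun i =>
    hF.meas.inter ((tile_emb277 hP i).measurable hBm)
  have hterm : ∀ i : GL (Fin 2) K × ℤ,
      ∫ y in F, B.indicator Θ (tile277 (AdelicAut.id K) r i y) ∂μ = ∫ y in Cs i, Θ y ∂μ := by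
    intro i
    have hfun : (fun y => B.indicator Θ (tile277 (AdelicAut.id K) r i y))
        = ((tile277 (AdelicAut.id K) r i) ⁻¹' B).indicator Θ := by
      funext y
      by_cases hy : tile277 (AdelicAut.id K) r i y ∈ B
      · rw [Set.indicator_of_mem hy, Set.indicator_of_mem (show y ∈ _ ⁻¹' B from hy),
          tile_id277, mul_assoc, hl, zpow_inv_of_ray277 hray]
      · rw [Set.indicator_of_notMem hy, Set.indicator_of_notMem (show y ∉ _ ⁻¹' B from hy)]
    rw [hfun, setIntegral_indicator ((tile_emb277 hP i).measurable hBm)]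
  have hdisj : Pairwise (Function.onFun Disjoint Cs) := by
    intro i j hij
    rw [Function.onFun, Set.disjoint_left]
    rintro y ⟨-, x, hx, hxe⟩ ⟨-, x', hx', hxe'⟩
    apply hij
    -- `y h⁻¹ = tile (i₁⁻¹, -i₂) x = tile (j₁⁻¹, -j₂) x'`
    have hxe1 : x * h = ratG i.1 * y * r ^ i.2 := by rw [← tile_id277]; exact hxe
    have hxe2 : x' * h = ratG j.1 * y * r ^ j.2 := by rw [← tile_id277]; exact hxe'
    have k1 : tile277 (AdelicAut.id K) r (i.1⁻¹, -i.2) x = y * h⁻¹ := by
      rw [tile_id277]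
      have : x = ratG i.1 * y * r ^ i.2 * h⁻¹ := by rw [← hxe1]; group
      rw [this]
      have hcomm := ray_zpow_comm277 hr h⁻¹ i.2
      simp only [map_inv]
      calc (ratG i.1)⁻¹ * (ratG i.1 * y * r ^ i.2 * h⁻¹) * r ^ (-i.2)
          = y * (r ^ i.2 * h⁻¹) * r ^ (-i.2) := by group
        _ = y * (h⁻¹ * r ^ i.2) * r ^ (-i.2) := by rw [hcomm]
        _ = y * h⁻¹ := by group
    have k2 : tile277 (AdelicAut.id K) r (j.1⁻¹, -j.2) x' = y * h⁻¹ := by
      rw [tile_id277]
      have : x' = ratG j.1 * y * r ^ j.2 * h⁻¹ := by rw [← hxe2]; group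
      rw [this]
      have hcomm := ray_zpow_comm277 hr h⁻¹ j.2
      simp only [map_inv]
      calc (ratG j.1)⁻¹ * (ratG j.1 * y * r ^ j.2 * h⁻¹) * r ^ (-j.2)
          = y * (r ^ j.2 * h⁻¹) * r ^ (-j.2) := by group
        _ = y * (h⁻¹ * r ^ j.2) * r ^ (-j.2) := by rw [hcomm]
        _ = y * h⁻¹ := by group
    have k3 := tile_unique277 hN hF hr hP hx hx' (k1.trans k2.symm)
    have k4 : i.1⁻¹ = j.1⁻¹ := congrArg Prod.fst k3
    have k5 : -i.2 = -j.2 := congrArg Prod.snd k3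
    exact Prod.ext (inv_injective k4) (neg_injective k5)
  have hunion : (⋃ i, Cs i) = F := by
    apply Set.Subset.antisymm
    · intro y hy
      obtain ⟨i, hi⟩ := Set.mem_iUnion.1 hy
      exact hi.1
    · intro y hy
      obtain ⟨i, x, hx, hxe⟩ := tile_cover277 hN hF hr hP (y * h⁻¹)
      rw [tile_id277] at hxe
      refine Set.mem_iUnion.2 ⟨(i.1⁻¹, -i.2), hy, x, hx, ?_⟩
      rw [tile_id277]
      have hcomm := ray_zpow_comm277 hr h (-i.2)
      simp only [map_inv]
      have hy' : y = ratG i.1 * x * r ^ i.2 * h := by rw [hxe]; group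
      calc x * h = (ratG i.1)⁻¹ * (ratG i.1 * x * r ^ i.2 * h) * r ^ (-i.2) := by
            have : (ratG i.1)⁻¹ * (ratG i.1 * x * r ^ i.2 * h) * r ^ (-i.2)
                = x * r ^ i.2 * (h * r ^ (-i.2)) := by group
            rw [this, ← hcomm]; group
        _ = (ratG i.1)⁻¹ * y * r ^ (-i.2) := by rw [← hy']
  have e3 : ∫ y in F, Θ y ∂μ = ∑' i, ∫ y in Cs i, Θ y ∂μ := by
    have := integral_iUnion (μ := μ) (f := Θ) hCm hdisj (by rw [hunion]; exact hΘF)
    rw [hunion] at this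
    exact this
  rw [e1, e2, e3]
  exact tsum_congr hterm

/-- The inner product of T5 is invariant under simultaneous right translation. -/
theorem innerD_mul_right277 (hN : T1.AdNormC K) (hF : IsFrame μ F) (hr : IsRayGen r)
    {ψ χ : G K → ℂ} (hψc : Continuous ψ) (hχc : Continuous χ)
    (hψb : ∃ C : ℝ, ∀ g : G K, ‖ψ g‖ ≤ C) (hχb : ∃ C : ℝ, ∀ g : G K, ‖χ g‖ ≤ C)
    (hψl : ∀ (γ : GL (Fin 2) K) (g : G K), ψ (ratG γ * g) = ψ g)
    (hχl : ∀ (γ : GL (Fin 2) K) (g : G K), χ (ratG γ * g) = χ g)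
    (hψr : ∀ g : G K, ψ (g * r) = ψ g) (hχr : ∀ g : G K, χ (g * r) = χ g) (h : G K) :
    innerD μ F (fun x => ψ (x * h)) (fun x => χ (x * h)) = innerD μ F ψ χ := by
  obtain ⟨C₁, h₁⟩ := hψb
  obtain ⟨C₂, h₂⟩ := hχb
  have hcont : Continuous fun x => ψ x * conj (χ x) :=
    hψc.mul (Complex.continuous_conj.comp hχc)
  have hbd : ∃ C : ℝ, ∀ g : G K, ‖ψ g * conj (χ g)‖ ≤ C := by
    refine ⟨C₁ * C₂, fun g => ?_⟩
    rw [norm_mul, RCLike.norm_conj]
    exact mul_le_mul (h₁ g) (h₂ g) (norm_nonneg _) ((norm_nonneg _).trans (h₁ g))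
  exact setIntegral_mul_right277 hN hF hr (Θ := fun x => ψ x * conj (χ x)) hcont hbd
    (fun γ g => by simp only [hψl, hχl]) (fun g => by simp only [hψr, hχr]) h

/-- Right translations have the inverse translation as adjoint. -/
theorem innerD_mul_right_adjoint277 (hN : T1.AdNormC K) (hF : IsFrame μ F) (hr : IsRayGen r)
    {ψ χ : G K → ℂ} (hψc : Continuous ψ) (hχc : Continuous χ)
    (hψb : ∃ C : ℝ, ∀ g : G K, ‖ψ g‖ ≤ C) (hχb : ∃ C : ℝ, ∀ g : G K, ‖χ g‖ ≤ C)
    (hψl : ∀ (γ : GL (Fin 2) K) (g : G K), ψ (ratG γ * g) = ψ g)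
    (hχl : ∀ (γ : GL (Fin 2) K) (g : G K), χ (ratG γ * g) = χ g)
    (hψr : ∀ g : G K, ψ (g * r) = ψ g) (hχr : ∀ g : G K, χ (g * r) = χ g) (h : G K) :
    innerD μ F (fun x => ψ (x * h)) χ = innerD μ F ψ (fun x => χ (x * h⁻¹)) := by
  have hχ'c : Continuous fun x => χ (x * h⁻¹) := hχc.comp (continuous_mul_const _)
  have hχ'b : ∃ C : ℝ, ∀ g : G K, ‖χ (g * h⁻¹)‖ ≤ C := by
    obtain ⟨C, hC⟩ := hχb
    exact ⟨C, fun g => hC _⟩
  have hχ'l : ∀ (γ : GL (Fin 2) K) (g : G K), χ (ratG γ * g * h⁻¹) = χ (g * h⁻¹) := by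
    intro γ g
    rw [mul_assoc, hχl]
  have hχ'r : ∀ g : G K, χ (g * r * h⁻¹) = χ (g * h⁻¹) := by
    intro g
    have hcomm : r * h⁻¹ = h⁻¹ * r := ray_comm277 hr h⁻¹
    rw [mul_assoc, hcomm, ← mul_assoc, hχr]
  have := innerD_mul_right277 hN hF hr hψc hχ'c hψb hχ'b hψl hχ'l hψr hχ'r h
  rw [← this]
  congr 1
  funext x
  rw [mul_assoc, mul_inv_cancel, mul_one]

end Fermat.Agent.LT.T7.H277
end
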