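import Mathlib
import Fermat.Agent.LT.T5.H277.Coeff
import Fermat.Agent.LT.T7.H893.SupplyFamSpec

/-!
# Row LT, tower T7, node T7.L2.1.F `FamC` (cut of helper893): ASSET `ROps` (helper277) -- OFF-MAIN

The operator calculus of the families of `LT/T7/H893/SupplyFamSpec.lean`:

* `ltr`, `lsum`, `iwL`, `regL` preserve continuity and compact support;
* `Rconv_ltr277`   : `R(ltr b φ) ψ = (R(φ) ψ)(· b)`;
* `Rconv_lsum277`  : `R(lsum H φ) ψ = cosetOp H (R(φ) ψ)`;
* `Rconv_iwL277`   : `R(iwL w H φ) ψ = iwOp w H (R(φ) ψ)`;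
* `Rconv_regL277`  : `R(regL w z H k m φ) ψ = shiftOp z k ((iwOp w H)^[m] (R(φ) ψ))`;
* `Rconv_down277`, `Rconv_up277`: the operators of the members of the two families.

No hole, nothing assumed.  Input: `T5.H277.Rconv_Rconv277` (Fubini).
-/

set_option autoImplicit false
open IsDedekindDomain NumberField MeasureTheory
open scoped ComplexConjugate

noncomputable section
namespace Fermat.Agent.LT.T7.H277

open Fermat.Agent.LT Fermat.Agent.LT.H556 Fermat.Agent.LT.H556.A0 Fermat.Agent.LT.T7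
open Fermat.Agent.LT.T7.H893

attribute [local instance] Fermat.Agent.LT.T5.instMeasurableSpaceG

variable {K : Type} [Field K] [NumberField K]
variable {μ : Measure (G K)} {F : Set (G K)}

/-! ## Continuity and compact support -/

theorem continuous_ltr277 (b : G K) {φ : G K → ℂ} (hφ : Continuous φ) :
    Continuous (ltr b φ) :=
  hφ.comp (continuous_const_mul b⁻¹)

theorem hasCompactSupport_ltr277 (b : G K) {φ : G K → ℂ} (hφ : HasCompactSupport φ) :
    HasCompactSupport (ltr b φ) :=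
  hφ.comp_homeomorph (Homeomorph.mulLeft b⁻¹)

theorem lsum_eq_sum277 (H : Finset (G K)) (φ : G K → ℂ) :
    lsum H φ = ∑ h ∈ H, ltr h φ := by
  funext y
  simp only [lsum, ltr, Finset.sum_apply]

theorem continuous_lsum277 (H : Finset (G K)) {φ : G K → ℂ} (hφ : Continuous φ) :
    Continuous (lsum H φ) := by
  unfold lsum
  exact continuous_finsetSum _ fun h _ => hφ.comp (continuous_const_mul h⁻¹)

theorem hasCompactSupport_lsum277 (H : Finset (G K)) {φ : G K → ℂ} (hφ : HasCompactSupport φ) :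
    HasCompactSupport (lsum H φ) := by
  classical
  rw [lsum_eq_sum277]
  induction H using Finset.induction_on with
  | empty =>
    simp only [Finset.sum_empty]
    exact HasCompactSupport.zero
  | insert a s ha ih =>
    rw [Finset.sum_insert ha]
    exact (hasCompactSupport_ltr277 a hφ).add ih

theorem iwL_eq277 (w : HeightOneSpectrum (𝓞 K)) (H : Finset (G K)) (φ : G K → ℂ) :
    iwL w H φ = fun y => ((Real.sqrt (Ideal.absNorm w.asIdeal : ℝ) : ℝ) : ℂ)⁻¹ * lsum H φ y :=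
  rfl

theorem continuous_iwL277 (w : HeightOneSpectrum (𝓞 K)) (H : Finset (G K)) {φ : G K → ℂ}
    (hφ : Continuous φ) : Continuous (iwL w H φ) := by
  rw [iwL_eq277]
  exact continuous_const.mul (continuous_lsum277 H hφ)

theorem hasCompactSupport_iwL277 (w : HeightOneSpectrum (𝓞 K)) (H : Finset (G K))
    {φ : G K → ℂ} (hφ : HasCompactSupport φ) : HasCompactSupport (iwL w H φ) := by
  rw [iwL_eq277]
  exact (hasCompactSupport_lsum277 H hφ).mul_left

theorem continuous_iwL_iter277 (w : HeightOneSpectrum (𝓞 K)) (H : Finset (G K)) (m : ℕ)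
    {φ : G K → ℂ} (hφ : Continuous φ) : Continuous ((iwL w H)^[m] φ) := by
  induction m with
  | zero => simpa using hφ
  | succ n ih =>
    rw [Function.iterate_succ_apply']
    exact continuous_iwL277 w H ih

theorem hasCompactSupport_iwL_iter277 (w : HeightOneSpectrum (𝓞 K)) (H : Finset (G K)) (m : ℕ)
    {φ : G K → ℂ} (hφ : HasCompactSupport φ) : HasCompactSupport ((iwL w H)^[m] φ) := by
  induction m with
  | zero => simpa using hφ
  | succ n ih =>
    rw [Function.iterate_succ_apply']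
    exact hasCompactSupport_iwL277 w H ih

theorem continuous_regL277 (w : HeightOneSpectrum (𝓞 K)) (z : G K) (H : Finset (G K)) (k : ℤ)
    (m : ℕ) {φ : G K → ℂ} (hφ : Continuous φ) : Continuous (regL w z H k m φ) :=
  continuous_ltr277 _ (continuous_iwL_iter277 w H m hφ)

theorem hasCompactSupport_regL277 (w : HeightOneSpectrum (𝓞 K)) (z : G K) (H : Finset (G K))
    (k : ℤ) (m : ℕ) {φ : G K → ℂ} (hφ : HasCompactSupport φ) :
    HasCompactSupport (regL w z H k m φ) :=
  hasCompactSupport_ltr277 _ (hasCompactSupport_iwL_iter277 w H m hφ)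

/-! ## Continuity of the operators on functions -/

theorem continuous_cosetOp277 (H : Finset (G K)) {ψ : G K → ℂ} (hψ : Continuous ψ) :
    Continuous (cosetOp H ψ) := by
  unfold cosetOp
  exact continuous_finsetSum _ fun h _ => hψ.comp (continuous_mul_const h)

theorem continuous_iwOp277 (w : HeightOneSpectrum (𝓞 K)) (H : Finset (G K)) {ψ : G K → ℂ}
    (hψ : Continuous ψ) : Continuous (iwOp w H ψ) := by
  unfold iwOp
  exact continuous_const.mul
    (continuous_finsetSum _ fun h _ => hψ.comp (continuous_mul_const h))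

theorem continuous_iwOp_iter277 (w : HeightOneSpectrum (𝓞 K)) (H : Finset (G K)) (m : ℕ)
    {ψ : G K → ℂ} (hψ : Continuous ψ) : Continuous ((iwOp w H)^[m] ψ) := by
  induction m with
  | zero => simpa using hψ
  | succ n ih =>
    rw [Function.iterate_succ_apply']
    exact continuous_iwOp277 w H ih

theorem continuous_shiftOp277 (z : G K) (k : ℤ) {ψ : G K → ℂ} (hψ : Continuous ψ) :
    Continuous (shiftOp z k ψ) :=
  hψ.comp (continuous_mul_const (z ^ k))

/-! ## The operators of the translates -/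

/-- `R(ltr b φ) ψ = (R(φ) ψ)(· b)`: left invariance of the Haar measure. -/
theorem Rconv_ltr277 (hF : T5.IsFrame μ F) (b : G K) (φ ψ : G K → ℂ) (x : G K) :
    T5.Rconv μ (ltr b φ) ψ x = T5.Rconv μ φ ψ (x * b) := by
  have : BorelSpace (G K) := T5.H277.borelSpaceG277
  have := hF.haar
  unfold T5.Rconv ltr
  have h := integral_mul_left_eq_self (μ := μ) (fun y => φ (b⁻¹ * y) * ψ (x * y)) b
  rw [← h]
  congr 1
  funext y
  simp only [inv_mul_cancel_left, mul_assoc]

theorem integrable_mul277 (hF : T5.IsFrame μ F) {φ ψ : G K → ℂ} (hφc : Continuous φ)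
    (hφs : HasCompactSupport φ) (hψ : Continuous ψ) (x : G K) :
    Integrable (fun y => φ y * ψ (x * y)) μ := by
  have : BorelSpace (G K) := T5.H277.borelSpaceG277
  have := hF.haar
  have hc : Continuous (fun y => φ y * ψ (x * y)) :=
    hφc.mul (hψ.comp (continuous_const_mul x))
  exact hc.integrable_of_hasCompactSupport hφs.mul_right

/-- `R(lsum H φ) ψ = cosetOp H (R(φ) ψ)`. -/
theorem Rconv_lsum277 (hF : T5.IsFrame μ F) (H : Finset (G K)) {φ ψ : G K → ℂ}
    (hφc : Continuous φ) (hφs : HasCompactSupport φ) (hψ : Continuous ψ) (x : G K) :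
    T5.Rconv μ (lsum H φ) ψ x = cosetOp H (T5.Rconv μ φ ψ) x := by
  have : BorelSpace (G K) := T5.H277.borelSpaceG277
  have := hF.haar
  have h1 : T5.Rconv μ (lsum H φ) ψ x = ∫ y, ∑ h ∈ H, ltr h φ y * ψ (x * y) ∂μ := by
    unfold T5.Rconv lsum ltr
    congr 1
    funext y
    rw [Finset.sum_mul]
  rw [h1, integral_finsetSum]
  · unfold cosetOp
    refine Finset.sum_congr rfl fun h _ => ?_
    exact Rconv_ltr277 hF h φ ψ x
  · intro h _
    exact integrable_mul277 hF (continuous_ltr277 h hφc) (hasCompactSupport_ltr277 h hφs) hψ x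

/-- `R(iwL w H φ) ψ = iwOp w H (R(φ) ψ)`. -/
theorem Rconv_iwL277 (hF : T5.IsFrame μ F) (w : HeightOneSpectrum (𝓞 K)) (H : Finset (G K))
    {φ ψ : G K → ℂ} (hφc : Continuous φ) (hφs : HasCompactSupport φ) (hψ : Continuous ψ)
    (x : G K) :
    T5.Rconv μ (iwL w H φ) ψ x = iwOp w H (T5.Rconv μ φ ψ) x := by
  have h1 : T5.Rconv μ (iwL w H φ) ψ x
      = ((Real.sqrt (Ideal.absNorm w.asIdeal : ℝ) : ℝ) : ℂ)⁻¹ * T5.Rconv μ (lsum H φ) ψ x := by
    unfold T5.Rconv
    rw [← integral_const_mul]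
    congr 1
    funext y
    rw [iwL_eq277]
    ring
  rw [h1, Rconv_lsum277 hF H hφc hφs hψ x]
  rfl

/-- `R((iwL w H)^[m] φ) ψ = (iwOp w H)^[m] (R(φ) ψ)`. -/
theorem Rconv_iwL_iter277 (hF : T5.IsFrame μ F) (w : HeightOneSpectrum (𝓞 K))
    (H : Finset (G K)) {φ ψ : G K → ℂ} (hφc : Continuous φ) (hφs : HasCompactSupport φ)
    (hψ : Continuous ψ) (m : ℕ) :
    T5.Rconv μ ((iwL w H)^[m] φ) ψ = (iwOp w H)^[m] (T5.Rconv μ φ ψ) := by
  induction m with
  | zero => rfl
  | succ n ih =>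
    rw [Function.iterate_succ_apply', Function.iterate_succ_apply', ← ih]
    funext x
    exact Rconv_iwL277 hF w H (continuous_iwL_iter277 w H n hφc)
      (hasCompactSupport_iwL_iter277 w H n hφs) hψ x

/-- `R(regL w z H k m φ) ψ = shiftOp z k ((iwOp w H)^[m] (R(φ) ψ))`. -/
theorem Rconv_regL277 (hF : T5.IsFrame μ F) (w : HeightOneSpectrum (𝓞 K)) (z : G K)
    (H : Finset (G K)) (k : ℤ) (m : ℕ) {φ ψ : G K → ℂ} (hφc : Continuous φ)
    (hφs : HasCompactSupport φ) (hψ : Continuous ψ) :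
    T5.Rconv μ (regL w z H k m φ) ψ = shiftOp z k ((iwOp w H)^[m] (T5.Rconv μ φ ψ)) := by
  funext x
  unfold regL
  rw [Rconv_ltr277 hF, Rconv_iwL_iter277 hF w H hφc hφs hψ m]
  rfl

/-- The operator of a product. -/
theorem Rconv_conv277 (hF : T5.IsFrame μ F) {φ₁ φ₂ ψ : G K → ℂ} (h₁c : Continuous φ₁)
    (h₁s : HasCompactSupport φ₁) (h₂c : Continuous φ₂) (h₂s : HasCompactSupport φ₂)
    (hψ : Continuous ψ) :
    T5.Rconv μ (T5.conv μ φ₁ φ₂) ψ = T5.Rconv μ φ₁ (T5.Rconv μ φ₂ ψ) := by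
  funext x
  exact (T5.H277.Rconv_Rconv277 hF h₁c h₁s h₂c h₂s hψ x).symm

/-- The operator of a member of the family downstairs:
`R(F₁ ⋆ regL u z H k m f₂) ψ = R(F₁) (Z^k 𝒰^m (R(f₂) ψ))`. -/
theorem Rconv_down277 (hF : T5.IsFrame μ F) (w : HeightOneSpectrum (𝓞 K)) (z : G K)
    (H : Finset (G K)) (k : ℤ) (m : ℕ) {φ₁ φ₂ ψ : G K → ℂ} (h₁c : Continuous φ₁)
    (h₁s : HasCompactSupport φ₁) (h₂c : Continuous φ₂) (h₂s : HasCompactSupport φ₂)
    (hψ : Continuous ψ) :
    T5.Rconv μ (T5.conv μ φ₁ (regL w z H k m φ₂)) ψ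
      = T5.Rconv μ φ₁ (shiftOp z k ((iwOp w H)^[m] (T5.Rconv μ φ₂ ψ))) := by
  rw [Rconv_conv277 hF h₁c h₁s (continuous_regL277 w z H k m h₂c)
    (hasCompactSupport_regL277 w z H k m h₂s) hψ, Rconv_regL277 hF w z H k m h₂c h₂s hψ]

/-- The operator of a member of the family upstairs:
`R(Φ₁ ⋆ lsum Hg (regL w z H k m φ₂)) ψ = R(Φ₁) ([U g U] Z^k 𝒰^m (R(φ₂) ψ))`. -/
theorem Rconv_up277 (hF : T5.IsFrame μ F) (Hg : Finset (G K)) (w : HeightOneSpectrum (𝓞 K))
    (z : G K) (H : Finset (G K)) (k : ℤ) (m : ℕ) {φ₁ φ₂ ψ : G K → ℂ} (h₁c : Continuous φ₁)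
    (h₁s : HasCompactSupport φ₁) (h₂c : Continuous φ₂) (h₂s : HasCompactSupport φ₂)
    (hψ : Continuous ψ) :
    T5.Rconv μ (T5.conv μ φ₁ (lsum Hg (regL w z H k m φ₂))) ψ
      = T5.Rconv μ φ₁ (cosetOp Hg (shiftOp z k ((iwOp w H)^[m] (T5.Rconv μ φ₂ ψ)))) := by
  have hc := continuous_regL277 w z H k m h₂c
  have hs := hasCompactSupport_regL277 w z H k m h₂s
  rw [Rconv_conv277 hF h₁c h₁s (continuous_lsum277 Hg hc) (hasCompactSupport_lsum277 Hg hs) hψ]
  congr 1
  funext x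
  rw [Rconv_lsum277 hF Hg hc hs hψ x, Rconv_regL277 hF w z H k m h₂c h₂s hψ]

/-! ## Zero -/

theorem Rconv_zero277 (φ : G K → ℂ) : T5.Rconv μ φ (fun _ => 0) = fun _ => 0 := by
  funext x
  simp [T5.Rconv]

theorem iwOp_zero277 (w : HeightOneSpectrum (𝓞 K)) (H : Finset (G K)) :
    iwOp w H (fun _ : G K => (0 : ℂ)) = fun _ => 0 := by
  funext x
  simp [iwOp]

theorem iwOp_iter_zero277 (w : HeightOneSpectrum (𝓞 K)) (H : Finset (G K)) (m : ℕ) :
    (iwOp w H)^[m] (fun _ : G K => (0 : ℂ)) = fun _ => 0 := by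
  induction m with
  | zero => rfl
  | succ n ih => rw [Function.iterate_succ_apply', ih, iwOp_zero277]

theorem shiftOp_zero277 (z : G K) (k : ℤ) :
    shiftOp z k (fun _ : G K => (0 : ℂ)) = fun _ => 0 := rfl

theorem cosetOp_zero277 (H : Finset (G K)) :
    cosetOp H (fun _ : G K => (0 : ℂ)) = fun _ => 0 := by
  funext x
  simp [cosetOp]

theorem shiftOp_zero_exp277 (z : G K) (ψ : G K → ℂ) : shiftOp z 0 ψ = ψ := by
  funext x
  simp [shiftOp]

end Fermat.Agent.LT.T7.H277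
end
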