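import Mathlib
import Fermat.Agent.LT.T7.H277.ROps

/-!
# Row LT, tower T7, node T7.L2.1.F `FamC` (cut of helper893): LEAVES `KillUpC`, `KillDownC`,
# `ClassDownC`, `CommDownC` (helper277) -- OFF-MAIN

PROVED, VERBATIM vs `LT/T7/H893/SupplyFamSpec.lean` (helper893), unconditional:

* `killUpC277 K K' : H893.KillUpC K K'`
* `killDownC277 K K' : H893.KillDownC K K'`
* `classDownC277 K K' : H893.ClassDownC K K'`
* `commDownC277 K K' : H893.CommDownC K K'`

from the operator calculus of `ROps.lean`.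
-/

set_option autoImplicit false
open AutomorphicForm IsDedekindDomain NumberField MeasureTheory
open scoped ComplexConjugate

noncomputable section
namespace Fermat.Agent.LT.T7.H277

open Fermat.Agent.LT Fermat.Agent.LT.H556 Fermat.Agent.LT.H556.A0 Fermat.Agent.LT.T7
open Fermat.Agent.LT.T7.H893

attribute [local instance] Fermat.Agent.LT.T5.instMeasurableSpaceG

variable (K K' : Type) [Field K] [NumberField K] [Field K'] [NumberField K'] [Algebra K K']

/-- **LEAF KILL-UP, VERBATIM.** -/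
theorem killUpC277 : KillUpC K K' := by
  intro ℓ Φ B hB g hg E hE X k m hX ψ hψ horth x
  have hF := hB.frame'.frame
  have h1 := hE.up1_test X hX
  have h2 := hE.up2_test
  have hkill : T5.Rconv B.R'.μ E.φ₂ ψ = fun _ => 0 := by
    funext y
    exact hE.up2_kill ψ hψ horth y
  show T5.Rconv B.R'.μ (T5.conv B.R'.μ (E.Φ₁ X)
    (lsum E.Hg (regL (B.o 0) E.z' E.H' k m E.φ₂))) ψ x = 0
  rw [Rconv_up277 hF E.Hg (B.o 0) E.z' E.H' k m h1.cont h1.supp h2.cont h2.supp hψ.cont,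
    hkill, iwOp_iter_zero277, shiftOp_zero277, cosetOp_zero277, Rconv_zero277]

/-- **LEAF KILL-DOWN, VERBATIM.** -/
theorem killDownC277 : KillDownC K K' := by
  intro ℓ Φ B hB g hg E hE X k m hX ψ hψ horth x
  have hF := hB.frame.frame
  have h1 := hE.dn1_test X hX
  have h2 := hE.dn2_test
  have hkill : T5.Rconv B.R.μ E.f₂ ψ = fun _ => 0 := by
    funext y
    exact hE.dn2_kill ψ hψ horth y
  show T5.Rconv B.R.μ (T5.conv B.R.μ (E.F₁ X) (regL B.u E.z E.H k m E.f₂)) ψ x = 0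
  rw [Rconv_down277 hF B.u E.z E.H k m h1.cont h1.supp h2.cont h2.supp hψ.cont,
    hkill, iwOp_iter_zero277, shiftOp_zero277, Rconv_zero277]

/-- The operator of the base member downstairs: `R(f [] 0 0) = R(F₁ []) R(f₂)`. -/
theorem Rconv_down_base277 {ℓ : ℕ} {Φ : HeckeEigensystem K' ℂ} {B : L2Base K K'}
    (hB : IsL2Base ℓ Φ B) {g : G K'} {E : L2Pre K K'} (hE : IsL2Pre ℓ Φ B g E)
    {ψ : G K → ℂ} (hψ : Continuous ψ) :
    T5.Rconv B.R.μ (E.down B [] 0 0) ψ
      = T5.Rconv B.R.μ (E.F₁ []) (T5.Rconv B.R.μ E.f₂ ψ) := by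
  have hF := hB.frame.frame
  have h1 := hE.dn1_test [] (by intro x hx; simp at hx)
  have h2 := hE.dn2_test
  show T5.Rconv B.R.μ (T5.conv B.R.μ (E.F₁ []) (regL B.u E.z E.H 0 0 E.f₂)) ψ = _
  rw [Rconv_down277 hF B.u E.z E.H 0 0 h1.cont h1.supp h2.cont h2.supp hψ,
    Function.iterate_zero, id, shiftOp_zero_exp277]

/-- **LEAF CLASS-DOWN, VERBATIM.** -/
theorem classDownC277 : ClassDownC K K' := by
  intro ℓ Φ B hB g hg E hE ψ c hψ
  rw [Rconv_down_base277 K K' hB hE hψ.inv.cusp.cont]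
  exact hE.dn1_class _ c (hE.dn2_class ψ c hψ)

/-- **LEAF COMM-DOWN, VERBATIM.** -/
theorem commDownC277 : CommDownC K K' := by
  intro ℓ Φ B hB g hg E hE ψ hψ H z hH hz
  have hc := hψ.cusp.cont
  obtain ⟨a2, b2⟩ := hE.dn2_comm ψ hψ H z hH hz
  have hW := hE.dn2_wfn ψ hψ
  obtain ⟨a1, b1⟩ := hE.dn1_comm _ hW H z hH hz
  have e0 := Rconv_down_base277 K K' hB hE hc
  refine ⟨fun x => ?_, fun k x => ?_⟩
  · rw [Rconv_down_base277 K K' hB hE (continuous_iwOp277 B.u H hc), e0]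
    have : T5.Rconv B.R.μ E.f₂ (iwOp B.u H ψ) = iwOp B.u H (T5.Rconv B.R.μ E.f₂ ψ) :=
      funext a2
    rw [this]
    exact a1 x
  · rw [Rconv_down_base277 K K' hB hE (continuous_shiftOp277 z k hc), e0]
    have : T5.Rconv B.R.μ E.f₂ (shiftOp z k ψ) = shiftOp z k (T5.Rconv B.R.μ E.f₂ ψ) :=
      funext (b2 k)
    rw [this]
    exact b1 k x

end Fermat.Agent.LT.T7.H277
end
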